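/-
S15, block HG, part APP: from the chain inequality to `ε M ⊆ r M + torsion`.  Owner: helper64.
Blueprint: report #1380 (APPLICATION) and instruction #6145.  Definitions only (no `sorry`).

Abstract setting: `J` an abelian group with an action of `Gal = G_ℚ` (in the application `J₀(N)(ℚ̄)`),
`n = r ^ k`, `ε` an equivariant endomorphism which is idempotent on `J[n]`, `e` a perfect equivariant
pairing on `J[n]` (the Weil pairing).  For a rational non torsion point `y`: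

  `RR = {R | n R ∈ ℤ y}`,  `KK = ℤ y + (1 - ε) J[n]`,  `E = RR / KK`,  `V = ε J[n]`,
  `0 → V → E → ℤ/n → 0`.
-/
import Fermat.Agent.S15.HG.Statements2
import Fermat.Agent.S19.Loc.Defs

set_option autoImplicit false

noncomputable section

namespace Fermat.Agent.S15.HG

open Fermat.Agent.S19

variable {J : Type} [AddCommGroup J] [DistribMulAction Gal J]

/-- `x` is a rational point. -/
def Rat (x : J) : Prop := ∀ g : Gal, g • x = x

/-- `x` is a torsion point. -/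
def Tor (x : J) : Prop := ∃ m : ℕ, 0 < m ∧ m • x = 0

/-- `RR = {R | n R ∈ ℤ y}`. -/
def RR (n : ℕ) (y : J) : Set J := {R | ∃ a : ℤ, n • R = a • y}

/-- `KK = ℤ y + (1 - ε) J[n]`. -/
def KK (n : ℕ) (ε : J →+ J) (y : J) : Set J :=
  {x | ∃ (c : ℤ) (u : J), n • u = 0 ∧ x = c • y + (u - ε u)}

/-- `VV = ε J[n]`. -/
def VV (n : ℕ) (ε : J →+ J) : Set J := {x | n • x = 0 ∧ ε x = x}

/-- The hypotheses on `(J, ε, e)`; `n = r ^ k`. -/
structure AppHyp (r k N : ℕ) (AN : ValuationSubring Qb) (J : Type) [AddCommGroup J]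
    [DistribMulAction Gal J] (ε : J →+ J) (e : J → J → Qb) (C : ℕ) : Prop where
  /-- `J` is `n`-divisible -/
  div : ∀ x : J, ∃ y : J, r ^ k • y = x
  /-- `J[n]` is finite -/
  fin : {x : J | r ^ k • x = 0}.Finite
  smooth : Smooth J
  ε_equiv : ∀ (g : Gal) (x : J), ε (g • x) = g • ε x
  ε_idem : ∀ x : J, r ^ k • x = 0 → ε (ε x) = ε x
  /-- Eichler-Shimura + density: `(g - 1)(g - χ(g))` is nilpotent on `ε J[n]` -/
  eis : ∀ (g : Gal) (a : ℕ), (∀ ζ : Qb, ζ ^ r ^ k = 1 → g ζ = ζ ^ a) →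
    ∃ m : ℕ, ∀ x ∈ VV (r ^ k) ε, (eisOp g a)^[m] x = 0
  /-- division points of rational points are unramified outside `r N` -/
  unram : ∀ ℓ : ℕ, ℓ.Prime → ℓ ≠ r → ℓ ≠ N → ∃ A : ValuationSubring Qb, A.LiesOverPrime ℓ ∧
    ∀ τ ∈ A.inertiaSubgroupIn ℚ, ∀ R : J, Rat (r ^ k • R) → τ • R = R
  /-- isotropy at `N` (contract `LocN`) -/
  locN : ∀ τ ∈ AN.inertiaSubgroupIn ℚ, ∀ τ' ∈ AN.inertiaSubgroupIn ℚ, ∀ R R' : J,
    Rat (r ^ k • R) → Rat (r ^ k • R') → e (τ • R - R) (τ' • R' - R') = 1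
  /-- the Kummer cocycles are flat at `r` (contract `Ext`) -/
  fl : ∀ A : ValuationSubring Qb, A.LiesOverPrime r → ∀ R w : J, Rat (r ^ k • R) → r ^ k • w = 0 →
    IsSI A (fun s => e (s • R - R) (s • w))
  e_add_left : ∀ x x' w : J, r ^ k • x = 0 → r ^ k • x' = 0 → r ^ k • w = 0 →
    e (x + x') w = e x w * e x' w
  e_add_right : ∀ x w w' : J, r ^ k • x = 0 → r ^ k • w = 0 → r ^ k • w' = 0 →
    e x (w + w') = e x w * e x w'
  e_ne_zero : ∀ x w : J, r ^ k • x = 0 → r ^ k • w = 0 → e x w ≠ 0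
  e_equiv : ∀ (g : Gal) (x w : J), r ^ k • x = 0 → r ^ k • w = 0 → e (g • x) (g • w) = g (e x w)
  e_nondeg_left : ∀ x : J, r ^ k • x = 0 → (∀ w : J, r ^ k • w = 0 → e x w = 1) → x = 0
  e_nondeg_right : ∀ w : J, r ^ k • w = 0 → (∀ x : J, r ^ k • x = 0 → e x w = 1) → w = 0
  /-- the rational `n`-torsion has at most `C` elements, and `C² < n` -/
  card_le : {x : J | r ^ k • x = 0 ∧ Rat x}.ncard ≤ C
  lt : C * C < r ^ k

/-- `(E, V, q, j, ι, lam)` is a model of `0 → ε J[n] → RR / KK → ℤ/n → 0`. -/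
structure IsModel (n : ℕ) (ε : J →+ J) (y : J) (E V : Type) [AddCommGroup E] [AddCommGroup V]
    [DistribMulAction Gal E] [DistribMulAction Gal V] (q : J → E) (j : V →+ J) (ι : V →+ E)
    (lam : E →+ ZMod n) : Prop where
  q_add : ∀ R ∈ RR n y, ∀ R' ∈ RR n y, q (R + R') = q R + q R'
  q_surj : ∀ x : E, ∃ R ∈ RR n y, q R = x
  q_zero : ∀ R ∈ RR n y, (q R = 0 ↔ R ∈ KK n ε y)
  q_equiv : ∀ (g : Gal), ∀ R ∈ RR n y, q (g • R) = g • q R
  lam_q : ∀ (R : J) (a : ℤ), n • R = a • y → lam (q R) = (a : ZMod n)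
  j_inj : Function.Injective j
  j_range : ∀ x : J, x ∈ VV n ε ↔ ∃ v : V, j v = x
  j_equiv : ∀ (g : Gal) (v : V), j (g • v) = g • j v
  ι_eq : ∀ v : V, ι v = q (j v)

end Fermat.Agent.S15.HG

end
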