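/-
S15, block HG, part APP: node statements (no `sorry`).  Owner: helper64.
-/
import Fermat.Agent.S15.HG.App.Defs

set_option autoImplicit false

namespace Fermat.Agent.S15.HG

open Fermat.Agent.S19

/-- A1: a model exists. -/
def ModelStatement : Prop :=
  ∀ (r : ℕ) [Fact r.Prime] (k N : ℕ) (AN : ValuationSubring Qb) (J : Type) [AddCommGroup J]
    [DistribMulAction Gal J] (ε : J →+ J) (e : J → J → Qb) (C : ℕ), AppHyp r k N AN J ε e C →
    ∀ y : J, Rat y → ¬ Tor y →
    ∃ (E V : Type) (_ : AddCommGroup E) (_ : AddCommGroup V) (_ : DistribMulAction Gal E)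
      (_ : DistribMulAction Gal V) (q : J → E) (j : V →+ J) (ι : V →+ E) (lam : E →+ ZMod (r ^ k)),
      IsModel (r ^ k) ε y E V q j ι lam

/-- A2: formal properties of a model: finiteness and exactness of `0 → V → E → ℤ/n → 0`. -/
def ModelExactStatement : Prop :=
  ∀ (r : ℕ) [Fact r.Prime] (k N : ℕ) (AN : ValuationSubring Qb) (J : Type) [AddCommGroup J]
    [DistribMulAction Gal J] (ε : J →+ J) (e : J → J → Qb) (C : ℕ), AppHyp r k N AN J ε e C →
    ∀ y : J, Rat y → ¬ Tor y →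
    ∀ (E V : Type) [AddCommGroup E] [AddCommGroup V] [DistribMulAction Gal E]
      [DistribMulAction Gal V] (q : J → E) (j : V →+ J) (ι : V →+ E) (lam : E →+ ZMod (r ^ k)),
      IsModel (r ^ k) ε y E V q j ι lam →
      Finite E ∧ Function.Injective ι ∧ Function.Surjective lam ∧
        (∀ x : E, lam x = 0 ↔ ∃ v : V, ι v = x) ∧
        (∀ (g : Gal) (v : V), ι (g • v) = g • ι v) ∧ (∀ (g : Gal) (x : E), lam (g • x) = lam x)

/-- A3: `E` satisfies `Hyp`. -/
def ModelHypStatement : Prop :=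
  ∀ (r : ℕ) [Fact r.Prime] (k N : ℕ) (AN : ValuationSubring Qb) (J : Type) [AddCommGroup J]
    [DistribMulAction Gal J] (ε : J →+ J) (e : J → J → Qb) (C : ℕ), AppHyp r k N AN J ε e C →
    ∀ y : J, Rat y → ¬ Tor y →
    ∀ (E V : Type) [AddCommGroup E] [AddCommGroup V] [DistribMulAction Gal E]
      [DistribMulAction Gal V] (q : J → E) (j : V →+ J) (ι : V →+ E) (lam : E →+ ZMod (r ^ k)),
      IsModel (r ^ k) ε y E V q j ι lam → Hyp r k N E

/-- A4: `E` has a Hopf order at `r`. -/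
def ModelHopfStatement : Prop :=
  ∀ (r : ℕ) [Fact r.Prime] (k N : ℕ) (AN : ValuationSubring Qb) (J : Type) [AddCommGroup J]
    [DistribMulAction Gal J] (ε : J →+ J) (e : J → J → Qb) (C : ℕ), AppHyp r k N AN J ε e C →
    ∀ y : J, Rat y → ¬ Tor y →
    ∀ (E V : Type) [AddCommGroup E] [AddCommGroup V] [DistribMulAction Gal E]
      [DistribMulAction Gal V] (q : J → E) (j : V →+ J) (ι : V →+ E) (lam : E →+ ZMod (r ^ k)),
      IsModel (r ^ k) ε y E V q j ι lam → HasHopfOrder r E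

/-- A5: inertia at `N` acts unipotently of level 2 on `E`. -/
def ModelUniStatement : Prop :=
  ∀ (r : ℕ) [Fact r.Prime] (k N : ℕ), N.Prime → N ≠ r → ∀ (AN : ValuationSubring Qb),
    AN.LiesOverPrime N → ∀ (J : Type) [AddCommGroup J]
    [DistribMulAction Gal J] (ε : J →+ J) (e : J → J → Qb) (C : ℕ), AppHyp r k N AN J ε e C →
    ∀ y : J, Rat y → ¬ Tor y →
    ∀ (E V : Type) [AddCommGroup E] [AddCommGroup V] [DistribMulAction Gal E]
      [DistribMulAction Gal V] (q : J → E) (j : V →+ J) (ι : V →+ E) (lam : E →+ ZMod (r ^ k)),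
      IsModel (r ^ k) ε y E V q j ι lam →
      ∀ τ ∈ AN.inertiaSubgroupIn ℚ, ∀ x : E, τ • τ • x - 2 • τ • x + x = 0

/-- A6: at most `C` rational points in `V` and at most `C` rational characters of `V`. -/
def ModelBoundStatement : Prop :=
  ∀ (r : ℕ) [Fact r.Prime] (k N : ℕ) (AN : ValuationSubring Qb) (J : Type) [AddCommGroup J]
    [DistribMulAction Gal J] (ε : J →+ J) (e : J → J → Qb) (C : ℕ), AppHyp r k N AN J ε e C →
    ∀ (V : Type) [AddCommGroup V] [DistribMulAction Gal V] (j : V →+ J), Function.Injective j →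
      (∀ x : J, x ∈ VV (r ^ k) ε ↔ ∃ v : V, j v = x) → (∀ (g : Gal) (v : V), j (g • v) = g • j v) →
      Nat.card {v : V // ∀ g : Gal, g • v = v} ≤ C ∧
        Nat.card {f : CD V // ∀ g : Gal, g • f = f} ≤ C

/-- A7: extraction.  If `n ≤ |E^G| |Hom_G(V, μ)|` then `ε y ∈ r J(ℚ) + J(ℚ)_tors`. -/
def ExtractStatement : Prop :=
  ∀ (r : ℕ) [Fact r.Prime] (k N : ℕ) (AN : ValuationSubring Qb) (J : Type) [AddCommGroup J]
    [DistribMulAction Gal J] (ε : J →+ J) (e : J → J → Qb) (C : ℕ), AppHyp r k N AN J ε e C →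
    ∀ y : J, Rat y → ¬ Tor y →
    ∀ (E V : Type) [AddCommGroup E] [AddCommGroup V] [DistribMulAction Gal E]
      [DistribMulAction Gal V] (q : J → E) (j : V →+ J) (ι : V →+ E) (lam : E →+ ZMod (r ^ k)),
      IsModel (r ^ k) ε y E V q j ι lam →
      r ^ k ≤ Nat.card {x : E // ∀ g : Gal, g • x = x} * Nat.card {f : CD V // ∀ g : Gal, g • f = f} →
      ∃ m' t : J, Rat m' ∧ Rat t ∧ Tor t ∧ ε y = r • m' + t

/-- **APP**: the output of the block HG. -/
def AppStatement : Prop :=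
  ∀ (r : ℕ) [Fact r.Prime] (k N : ℕ), N.Prime → N ≠ r →
    ∀ (Ar AN : ValuationSubring Qb), Ar.LiesOverPrime r → AN.LiesOverPrime N →
    ∀ (J : Type) [AddCommGroup J] [DistribMulAction Gal J] (ε : J →+ J) (e : J → J → Qb) (C : ℕ),
      AppHyp r k N AN J ε e C →
      ∀ y : J, Rat y → ∃ m' t : J, Rat m' ∧ Rat t ∧ Tor t ∧ ε y = r • m' + t

end Fermat.Agent.S15.HG
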