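/-
S15, block HG, part APP, node A7 (owner helper64, proof helper183): extraction.
If `n ≤ |E^G| |Hom_G(V, μ)|` then `ε y ∈ r J(ℚ) + J(ℚ)_tors`.
-/
import Fermat.Agent.S15.HG.App.Statements

set_option autoImplicit false

namespace Fermat.Agent.S15.HG

open Fermat.Agent.S19

/-- a nonzero element of `ZMod (r ^ k)` has a multiple equal to `r ^ (k - 1)` -/
theorem extractStatement_zmod {r : ℕ} (hr : r.Prime) {k : ℕ} (z : ZMod (r ^ k)) (hz : z ≠ 0) :
    ∃ m : ℕ, m • z = ((r ^ (k - 1) : ℕ) : ZMod (r ^ k)) := by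
  have : NeZero (r ^ k) := ⟨pow_ne_zero _ hr.ne_zero⟩
  have ha0 : z.val ≠ 0 := by rwa [Ne, ZMod.val_eq_zero]
  obtain ⟨i, u, hu, hiu⟩ := Nat.exists_eq_pow_mul_and_not_dvd ha0 r hr.ne_one
  have hlt : z.val < r ^ k := ZMod.val_lt z
  have hik : i < k := by
    by_contra hcon
    push Not at hcon
    have h1 : r ^ k ≤ r ^ i := Nat.pow_le_pow_right hr.pos hcon
    have hu0 : 0 < u := Nat.pos_of_ne_zero (by rintro rfl; exact hu (dvd_zero _))
    have h2 : r ^ i ≤ z.val := by rw [hiu]; exact Nat.le_mul_of_pos_right _ hu0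
    omega
  have hcop : Nat.Coprime u (r ^ k) :=
    Nat.Coprime.pow_right _ ((Nat.Prime.coprime_iff_not_dvd hr).2 hu).symm
  have hinv := ZMod.coe_mul_inv_eq_one u hcop
  refine ⟨r ^ (k - 1 - i) * ((u : ZMod (r ^ k))⁻¹).val, ?_⟩
  have hz' : z = ((r ^ i * u : ℕ) : ZMod (r ^ k)) := by rw [← hiu, ZMod.natCast_zmod_val]
  rw [nsmul_eq_mul, hz']
  push_cast
  rw [ZMod.natCast_zmod_val]
  have e : (r : ZMod (r ^ k)) ^ (k - 1) =
      (r : ZMod (r ^ k)) ^ (k - 1 - i) * (r : ZMod (r ^ k)) ^ i := by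
    rw [← pow_add]
    congr 1
    omega
  rw [e]
  linear_combination ((r : ZMod (r ^ k)) ^ (k - 1 - i) * (r : ZMod (r ^ k)) ^ i) * hinv

theorem extractStatement (hEx : ModelExactStatement) (hB : ModelBoundStatement) :
    ExtractStatement := by
  intro r _ k N AN J _ _ ε e C H y hy hyT E V _ _ _ _ q j ι lam M hcard
  have hr : r.Prime := Fact.out
  obtain ⟨hfin, hιinj, -, hker, hιeq, hlam⟩ := hEx r k N AN J ε e C H y hy hyT E V q j ι lam M
  obtain ⟨hV, hCD⟩ := hB r k N AN J ε e C H V j M.j_inj M.j_range M.j_equiv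
  have hn0 : 0 < r ^ k := pow_pos hr.pos k
  -- counting
  have h1 : r ^ k ≤ Nat.card {x : E // ∀ g : Gal, g • x = x} * C :=
    hcard.trans (Nat.mul_le_mul_left _ hCD)
  have hlt := H.lt
  have hC : C < Nat.card {x : E // ∀ g : Gal, g • x = x} := by
    by_contra hcon
    push Not at hcon
    have h2 : Nat.card {x : E // ∀ g : Gal, g • x = x} * C ≤ C * C := Nat.mul_le_mul_right _ hcon
    omega
  have hC1 : 1 ≤ C := by
    by_contra hcon
    have h0 : C = 0 := by omega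
    rw [h0, Nat.mul_zero] at h1
    omega
  have hk : 1 ≤ k := by
    by_contra hcon
    have h0 : k = 0 := by omega
    rw [h0, pow_zero] at hlt
    have : 1 ≤ C * C := Nat.mul_pos hC1 hC1
    omega
  -- a rational point of `E` outside `V`
  have hex : ∃ x₀ : E, (∀ g : Gal, g • x₀ = x₀) ∧ lam x₀ ≠ 0 := by
    by_contra hcon
    push Not at hcon
    have hVfin : Finite V := Finite.of_injective ι hιinj
    choose f hf using fun x : {x : E // ∀ g : Gal, g • x = x} => (hker x.1).1 (hcon x.1 x.2)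
    let F : {x : E // ∀ g : Gal, g • x = x} → {v : V // ∀ g : Gal, g • v = v} := fun x =>
      ⟨f x, fun g => hιinj (by rw [hιeq, hf, x.2])⟩
    have hF : Function.Injective F := by
      intro x x' hxx
      have h2 : f x = f x' := congrArg Subtype.val hxx
      apply Subtype.ext
      rw [← hf x, ← hf x', h2]
    have h3 := Nat.card_le_card_of_injective F hF
    omega
  obtain ⟨x₀, hx₀, hz⟩ := hex
  obtain ⟨m, hm⟩ := extractStatement_zmod hr (lam x₀) hz
  have hx : ∀ g : Gal, g • (m • x₀) = m • x₀ := fun g => by rw [smul_comm, hx₀]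
  have hlx : lam (m • x₀) = ((r ^ (k - 1) : ℕ) : ZMod (r ^ k)) := by rw [map_nsmul, hm]
  obtain ⟨R, ⟨a, ha⟩, hqR⟩ := M.q_surj (m • x₀)
  have hla : ((a : ℤ) : ZMod (r ^ k)) = ((r ^ (k - 1) : ℕ) : ZMod (r ^ k)) := by
    rw [← M.lam_q R a ha, hqR, hlx]
  obtain ⟨b, hb⟩ : ((r ^ k : ℕ) : ℤ) ∣ a - ((r ^ (k - 1) : ℕ) : ℤ) := by
    rw [← ZMod.intCast_zmod_eq_zero_iff_dvd]
    rw [Int.cast_sub, hla, Int.cast_natCast, sub_self]
  -- the corrected division point
  have hRR : ∀ c : ℤ, c • y ∈ RR (r ^ k) y := fun c => ⟨(r ^ k : ℕ) * c, by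
    rw [mul_smul, natCast_zsmul]⟩
  have hKK : ∀ c : ℤ, c • y ∈ KK (r ^ k) ε y := fun c => ⟨c, 0, smul_zero _, by simp⟩
  have hq0 : ∀ c : ℤ, q (c • y) = 0 := fun c => (M.q_zero _ (hRR c)).2 (hKK c)
  set R' : J := R + (-b) • y with hR'def
  have hnR' : r ^ k • R' = r ^ (k - 1) • y := by
    have e1 : a = ((r ^ (k - 1) : ℕ) : ℤ) + ((r ^ k : ℕ) : ℤ) * b := by linarith
    rw [hR'def, smul_add, ha, e1, add_smul, mul_smul, natCast_zsmul, natCast_zsmul, neg_smul,
      smul_neg, add_assoc, add_neg_cancel, add_zero]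
  have hR'mem : R' ∈ RR (r ^ k) y := ⟨((r ^ (k - 1) : ℕ) : ℤ), by rw [hnR', natCast_zsmul]⟩
  have hqR' : q R' = m • x₀ := by
    rw [hR'def, M.q_add R ⟨a, ha⟩ _ (hRR _), hq0, add_zero, hqR]
  have hnegmem : -R' ∈ RR (r ^ k) y := ⟨-((r ^ (k - 1) : ℕ) : ℤ), by
    rw [smul_neg, hnR', neg_smul, natCast_zsmul]⟩
  have hqneg : q (-R') = -(m • x₀) := by
    have h2 := M.q_add R' hR'mem (-R') hnegmem
    have h3 : q (0 : J) = 0 := by simpa using hq0 0
    rw [add_neg_cancel, h3, hqR'] at h2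
    exact (neg_eq_of_add_eq_zero_right h2.symm).symm
  -- `ε R'` is rational
  have hεR' : Rat (ε R') := by
    intro g
    have hgn : r ^ k • (g • R') = r ^ (k - 1) • y := by
      rw [← smul_comm, hnR', smul_comm, hy g]
    have hgmem : g • R' ∈ RR (r ^ k) y := ⟨((r ^ (k - 1) : ℕ) : ℤ), by rw [hgn, natCast_zsmul]⟩
    have hsubmem : g • R' + -R' ∈ RR (r ^ k) y := ⟨0, by
      rw [smul_add, hgn, smul_neg, hnR', add_neg_cancel, zero_smul]⟩
    have hq : q (g • R' + -R') = 0 := by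
      rw [M.q_add _ hgmem _ hnegmem, M.q_equiv g R' hR'mem, hqR', hx g, hqneg, add_neg_cancel]
    obtain ⟨c, u, hu, hcu⟩ := (M.q_zero _ hsubmem).1 hq
    have hnc : ((r ^ k : ℕ) * c : ℤ) • y = 0 := by
      have h2 : r ^ k • (g • R' + -R') = 0 := by
        rw [smul_add, hgn, smul_neg, hnR', add_neg_cancel]
      rw [hcu, smul_add, smul_sub, ← map_nsmul, hu, map_zero, sub_zero, add_zero] at h2
      rw [mul_smul, natCast_zsmul]
      exact h2
    have hc : c = 0 := by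
      by_contra hc0
      apply hyT
      refine ⟨((r ^ k : ℕ) * c : ℤ).natAbs, Int.natAbs_pos.2 (mul_ne_zero (by exact_mod_cast hn0.ne')
        hc0), ?_⟩
      rcases Int.natAbs_eq ((r ^ k : ℕ) * c : ℤ) with h3 | h3
      · rw [← natCast_zsmul, ← h3, hnc]
      · have h4 : (((r ^ k : ℕ) * c : ℤ).natAbs : ℤ) = -((r ^ k : ℕ) * c : ℤ) := by omega
        rw [← natCast_zsmul, h4, neg_smul, hnc, neg_zero]
    have h5 : ε (g • R' + -R') = 0 := by
      rw [hcu, hc, zero_smul, zero_add, map_sub, H.ε_idem u hu, sub_self]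
    rw [map_add, map_neg, H.ε_equiv] at h5
    exact add_neg_eq_zero.1 h5
  have hεy : Rat (ε y) := fun g => by rw [← H.ε_equiv, hy g]
  refine ⟨ε R', ε y - r • ε R', hεR', ?_, ⟨r ^ (k - 1), pow_pos hr.pos _, ?_⟩, by abel⟩
  · intro g
    rw [smul_sub, hεy g, smul_comm, hεR' g]
  · have e2 : r ^ (k - 1) * r = r ^ k := by
      rw [← pow_succ]
      congr 1
      omega
    rw [smul_sub, smul_smul, e2, ← map_nsmul, ← map_nsmul, hnR', sub_self]

end Fermat.Agent.S15.HG
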