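/-
S15, block HG, part APP: assembly of `AppStatement` from its nodes.   Owner: helper57.
-/
import Fermat.Agent.S15.HG.App.Statements

set_option autoImplicit false

namespace Fermat.Agent.S15.HG

open Fermat.Agent.S19

theorem appStatement (hCh : ChainStatement) (h1 : ModelStatement) (h2 : ModelExactStatement)
    (h3 : ModelHypStatement) (h4 : ModelHopfStatement) (h5 : ModelUniStatement)
    (h7 : ExtractStatement) : AppStatement := by
  intro r _ k N hN hNr Ar AN hAr hAN J _ _ ε e C hyp y hy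
  by_cases hT : Tor y
  · obtain ⟨m, hm, hmy⟩ := hT
    refine ⟨0, ε y, fun g => smul_zero g, fun g => ?_, ⟨m, hm, ?_⟩, ?_⟩
    · rw [← hyp.ε_equiv, hy g]
    · rw [← map_nsmul, hmy, map_zero]
    · rw [smul_zero, zero_add]
  · obtain ⟨E, V, _, _, _, _, q, j, ι, lam, hM⟩ := h1 r k N AN J ε e C hyp y hy hT
    obtain ⟨hfin, hι, hlam, hex, hιg, hlamg⟩ :=
      h2 r k N AN J ε e C hyp y hy hT E V q j ι lam hM
    haveI : Finite E := hfin
    haveI : NeZero (r ^ k) := ⟨pow_ne_zero k (Fact.out : r.Prime).ne_zero⟩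
    have hchain := hCh r k N hN hNr Ar AN hAr hAN V E (r ^ k) ι lam hι hlam hex hιg hlamg
      (h3 r k N AN J ε e C hyp y hy hT E V q j ι lam hM)
      (h4 r k N AN J ε e C hyp y hy hT E V q j ι lam hM)
      (h5 r k N hN hNr AN hAN J ε e C hyp y hy hT E V q j ι lam hM)
    exact h7 r k N AN J ε e C hyp y hy hT E V q j ι lam hM hchain

end Fermat.Agent.S15.HG
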