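/-
S15, block HG, part APP, node A1 (helper266): a model of `0 → ε J[n] → RR / KK → ℤ/n → 0` exists.
-/
import Fermat.Agent.S15.HG.App.Statements

set_option autoImplicit false
set_option linter.unusedSectionVars false
set_option linter.style.haveILetI false

noncomputable section

namespace Fermat.Agent.S15.HG

open Fermat.Agent.S19

variable {J : Type} [AddCommGroup J] [DistribMulAction Gal J]

/-- `RR` as a subgroup. -/
def modelStatement_RRs (n : ℕ) (y : J) : AddSubgroup J where
  carrier := RR n y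
  zero_mem' := ⟨0, by simp⟩
  add_mem' := by
    rintro R R' ⟨a, ha⟩ ⟨a', ha'⟩
    exact ⟨a + a', by rw [smul_add, ha, ha', add_smul]⟩
  neg_mem' := by
    rintro R ⟨a, ha⟩
    exact ⟨-a, by rw [smul_neg, ha, neg_smul]⟩

/-- `KK` as a subgroup. -/
def modelStatement_KKs (n : ℕ) (ε : J →+ J) (y : J) : AddSubgroup J where
  carrier := KK n ε y
  zero_mem' := ⟨0, 0, by simp, by simp⟩
  add_mem' := by
    rintro x x' ⟨c, u, hu, rfl⟩ ⟨c', u', hu', rfl⟩
    refine ⟨c + c', u + u', by rw [smul_add, hu, hu', add_zero], ?_⟩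
    rw [add_smul, map_add]
    abel
  neg_mem' := by
    rintro x ⟨c, u, hu, rfl⟩
    refine ⟨-c, -u, by rw [smul_neg, hu, neg_zero], ?_⟩
    rw [neg_smul, map_neg]
    abel

/-- `VV` as a subgroup. -/
def modelStatement_VVs (n : ℕ) (ε : J →+ J) : AddSubgroup J where
  carrier := VV n ε
  zero_mem' := ⟨by simp, by simp⟩
  add_mem' := by
    rintro x x' ⟨h1, h2⟩ ⟨h1', h2'⟩
    exact ⟨by rw [smul_add, h1, h1', add_zero], by rw [map_add, h2, h2']⟩
  neg_mem' := by
    rintro x ⟨h1, h2⟩
    exact ⟨by rw [smul_neg, h1, neg_zero], by rw [map_neg, h2]⟩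

theorem modelStatement_smul_KK {n : ℕ} {ε : J →+ J} {y : J} {c : ℤ} {u : J} (hu : n • u = 0) :
    n • (c • y + (u - ε u)) = ((n : ℤ) * c) • y := by
  rw [smul_add, smul_sub, hu, ← map_nsmul, hu, map_zero, sub_zero, add_zero, mul_smul,
    natCast_zsmul]

theorem modelStatement_KK_le (n : ℕ) (ε : J →+ J) (y : J) :
    modelStatement_KKs n ε y ≤ modelStatement_RRs n y := by
  rintro x ⟨c, u, hu, rfl⟩
  exact ⟨(n : ℤ) * c, modelStatement_smul_KK hu⟩

theorem modelStatement_VV_le (n : ℕ) (ε : J →+ J) (y : J) :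
    modelStatement_VVs n ε ≤ modelStatement_RRs n y := by
  rintro x ⟨h1, -⟩
  exact ⟨0, by rw [h1, zero_smul]⟩

theorem modelStatement_RR_stable (n : ℕ) {y : J} (hy : Rat y) (g : Gal) :
    ∀ x ∈ modelStatement_RRs n y, g • x ∈ modelStatement_RRs n y := by
  rintro x ⟨a, ha⟩
  exact ⟨a, by rw [smul_comm n g x, ha, smul_comm g a y, hy g]⟩

theorem modelStatement_KK_stable (n : ℕ) {ε : J →+ J} (hε : ∀ (g : Gal) (x : J), ε (g • x) = g • ε x)
    {y : J} (hy : Rat y) (g : Gal) :
    ∀ x ∈ modelStatement_KKs n ε y, g • x ∈ modelStatement_KKs n ε y := by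
  rintro x ⟨c, u, hu, rfl⟩
  refine ⟨c, g • u, by rw [smul_comm n g u, hu, smul_zero], ?_⟩
  rw [smul_add, smul_sub, smul_comm g c y, hy g, hε]

theorem modelStatement_VV_stable (n : ℕ) {ε : J →+ J}
    (hε : ∀ (g : Gal) (x : J), ε (g • x) = g • ε x) (g : Gal) :
    ∀ x ∈ modelStatement_VVs n ε, g • x ∈ modelStatement_VVs n ε := by
  rintro x ⟨h1, h2⟩
  exact ⟨by rw [smul_comm n g x, h1, smul_zero], by rw [hε, h2]⟩

/-- a non torsion point has no integral relation. -/
theorem modelStatement_unique {y : J} (hy : ¬ Tor y) {a a' : ℤ} (h : a • y = a' • y) : a = a' := by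
  by_contra hne
  apply hy
  have h0 : (a - a') • y = 0 := by rw [sub_smul, h, sub_self]
  refine ⟨(a - a').natAbs, Int.natAbs_pos.mpr (sub_ne_zero.mpr hne), ?_⟩
  rcases Int.natAbs_eq (a - a') with h1 | h1
  · rw [← natCast_zsmul, ← h1, h0]
  · have h2 : ((a - a').natAbs : ℤ) = -(a - a') := by omega
    rw [← natCast_zsmul, h2, neg_smul, h0, neg_zero]

/-- the integer `a` with `n R = a y`. -/
def modelStatement_a (n : ℕ) (y : J) (R : modelStatement_RRs n y) : ℤ := R.2.choose

theorem modelStatement_a_spec (n : ℕ) (y : J) (R : modelStatement_RRs n y) :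
    n • (R : J) = modelStatement_a n y R • y := R.2.choose_spec

theorem modelStatement_a_eq {n : ℕ} {y : J} (hy : ¬ Tor y) (R : modelStatement_RRs n y) {a : ℤ}
    (h : n • (R : J) = a • y) : modelStatement_a n y R = a :=
  modelStatement_unique hy ((modelStatement_a_spec n y R).symm.trans h)

/-- `R ↦ a mod n`. -/
def modelStatement_lam0 (n : ℕ) {y : J} (hy : ¬ Tor y) : modelStatement_RRs n y →+ ZMod n :=
  AddMonoidHom.mk' (fun R => ((modelStatement_a n y R : ℤ) : ZMod n)) (by
    intro R R'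
    rw [← Int.cast_add]
    congr 1
    apply modelStatement_a_eq hy
    rw [AddSubgroup.coe_add, smul_add, modelStatement_a_spec, modelStatement_a_spec, add_smul])

theorem modelStatement_lam0_apply {n : ℕ} {y : J} (hy : ¬ Tor y) (R : modelStatement_RRs n y) {a : ℤ}
    (h : n • (R : J) = a • y) : modelStatement_lam0 n hy R = (a : ZMod n) := by
  show ((modelStatement_a n y R : ℤ) : ZMod n) = a
  rw [modelStatement_a_eq hy R h]

theorem modelStatement_lam0_ker {n : ℕ} (ε : J →+ J) {y : J} (hy : ¬ Tor y) :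
    (modelStatement_KKs n ε y).addSubgroupOf (modelStatement_RRs n y) ≤
      (modelStatement_lam0 n hy).ker := by
  intro R hR
  rw [AddSubgroup.mem_addSubgroupOf] at hR
  obtain ⟨c, u, hu, hx⟩ := hR
  rw [AddMonoidHom.mem_ker, modelStatement_lam0_apply hy R (a := (n : ℤ) * c)
    (by rw [hx]; exact modelStatement_smul_KK hu)]
  simp

theorem modelStatement_aux (n : ℕ) (ε : J →+ J) (hε : ∀ (g : Gal) (x : J), ε (g • x) = g • ε x)
    (y : J) (hy : Rat y) (hty : ¬ Tor y) :
    ∃ (E V : Type) (_ : AddCommGroup E) (_ : AddCommGroup V) (_ : DistribMulAction Gal E)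
      (_ : DistribMulAction Gal V) (q : J → E) (j : V →+ J) (ι : V →+ E) (lam : E →+ ZMod n),
      IsModel n ε y E V q j ι lam := by
  classical
  letI aR : DistribMulAction Gal (modelStatement_RRs n y) :=
    subAction _ (modelStatement_RR_stable n hy)
  have hst : ∀ (g : Gal), ∀ x ∈ (modelStatement_KKs n ε y).addSubgroupOf (modelStatement_RRs n y),
      g • x ∈ (modelStatement_KKs n ε y).addSubgroupOf (modelStatement_RRs n y) := by
    intro g x hx
    rw [AddSubgroup.mem_addSubgroupOf] at hx ⊢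
    exact modelStatement_KK_stable n hε hy g _ hx
  letI aE : DistribMulAction Gal (modelStatement_RRs n y ⧸
      (modelStatement_KKs n ε y).addSubgroupOf (modelStatement_RRs n y)) := quotAction _ hst
  letI aV : DistribMulAction Gal (modelStatement_VVs n ε) :=
    subAction _ (modelStatement_VV_stable n hε)
  let q : J → (modelStatement_RRs n y ⧸
      (modelStatement_KKs n ε y).addSubgroupOf (modelStatement_RRs n y)) :=
    fun R => if h : R ∈ RR n y then QuotientAddGroup.mk (⟨R, h⟩ : modelStatement_RRs n y) else 0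
  have hq : ∀ (R : J) (h : R ∈ RR n y),
      q R = QuotientAddGroup.mk (⟨R, h⟩ : modelStatement_RRs n y) := fun R h => dif_pos h
  refine ⟨_, _, inferInstance, inferInstance, aE, aV, q, (modelStatement_VVs n ε).subtype,
    (QuotientAddGroup.mk' _).comp (AddSubgroup.inclusion (modelStatement_VV_le n ε y)),
    QuotientAddGroup.lift _ (modelStatement_lam0 n hty) (modelStatement_lam0_ker ε hty), ?_⟩
  refine
    { q_add := ?_, q_surj := ?_, q_zero := ?_, q_equiv := ?_, lam_q := ?_, j_inj := ?_,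
      j_range := ?_, j_equiv := ?_, ι_eq := ?_ }
  · intro R hR R' hR'
    rw [hq R hR, hq R' hR', hq (R + R') ((modelStatement_RRs n y).add_mem hR hR')]
    rfl
  · intro x
    induction x using QuotientAddGroup.induction_on with
    | H R => exact ⟨R, R.2, hq R R.2⟩
  · intro R hR
    rw [hq R hR, QuotientAddGroup.eq_zero_iff, AddSubgroup.mem_addSubgroupOf]
    rfl
  · intro g R hR
    rw [hq R hR, hq (g • R) (modelStatement_RR_stable n hy g R hR)]
    rfl
  · intro R a h
    rw [hq R ⟨a, h⟩]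
    exact modelStatement_lam0_apply hty _ h
  · exact Subtype.val_injective
  · intro x
    exact ⟨fun h => ⟨⟨x, h⟩, rfl⟩, by rintro ⟨v, rfl⟩; exact v.2⟩
  · intro g v
    rfl
  · intro v
    exact (hq _ (modelStatement_VV_le n ε y v.2)).symm

theorem modelStatement : ModelStatement := by
  intro r _ k N AN J _ _ ε e C H y hy hty
  exact modelStatement_aux (r ^ k) ε H.ε_equiv y hy hty

end Fermat.Agent.S15.HG

end
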