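/-
S15, block HG, part APP, node A2 (owner helper191): formal properties of a model of
`0 → ε J[n] → RR / KK → ℤ/n → 0`.
-/
import Fermat.Agent.S15.HG.App.Statements

set_option autoImplicit false

noncomputable section

namespace Fermat.Agent.S15.HG

open Fermat.Agent.S19

private theorem modelExactStatement_aux {J : Type} [AddCommGroup J] [DistribMulAction Gal J]
    (n : ℕ) [NeZero n] (ε : J →+ J) (hdiv : ∀ x : J, ∃ y : J, n • y = x)
    (hfin : {x : J | n • x = 0}.Finite) (hidem : ∀ x : J, n • x = 0 → ε (ε x) = ε x)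
    (y : J) (hy : Rat y) (hyT : ¬ Tor y)
    (E V : Type) [AddCommGroup E] [AddCommGroup V] [DistribMulAction Gal E]
    [DistribMulAction Gal V] (q : J → E) (j : V →+ J) (ι : V →+ E) (lam : E →+ ZMod n)
    (hM : IsModel n ε y E V q j ι lam) :
    Finite E ∧ Function.Injective ι ∧ Function.Surjective lam ∧
      (∀ x : E, lam x = 0 ↔ ∃ v : V, ι v = x) ∧
      (∀ (g : Gal) (v : V), ι (g • v) = g • ι v) ∧ (∀ (g : Gal) (x : E), lam (g • x) = lam x) := by
  have hn0 : n ≠ 0 := NeZero.ne n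
  -- `RR` is a Galois stable subgroup containing `VV`
  have hRRadd : ∀ R ∈ RR n y, ∀ R' ∈ RR n y, R + R' ∈ RR n y := by
    rintro R ⟨a, ha⟩ R' ⟨a', ha'⟩
    exact ⟨a + a', by rw [smul_add, ha, ha', add_smul]⟩
  have hRRsub : ∀ R ∈ RR n y, ∀ R' ∈ RR n y, R - R' ∈ RR n y := by
    rintro R ⟨a, ha⟩ R' ⟨a', ha'⟩
    exact ⟨a - a', by rw [smul_sub, ha, ha', sub_smul]⟩
  have hgal : ∀ (g : Gal) (R : J) (a : ℤ), n • R = a • y → n • (g • R) = a • y := by
    intro g R a ha
    rw [← smul_comm g n R, ha, smul_comm g a y, hy g]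
  have hRRtor : ∀ x : J, n • x = 0 → x ∈ RR n y := fun x hx => ⟨0, by rw [hx, zero_smul]⟩
  have hjV : ∀ v : V, j v ∈ VV n ε := fun v => (hM.j_range _).mpr ⟨v, rfl⟩
  have hjRR : ∀ v : V, j v ∈ RR n y := fun v => hRRtor _ (hjV v).1
  -- equivariance of `ι`
  have hιeq : ∀ (g : Gal) (v : V), ι (g • v) = g • ι v := by
    intro g v
    rw [hM.ι_eq, hM.ι_eq, hM.j_equiv, hM.q_equiv g _ (hjRR v)]
  -- invariance of `lam`
  have hlaminv : ∀ (g : Gal) (x : E), lam (g • x) = lam x := by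
    intro g x
    obtain ⟨R, ⟨a, ha⟩, rfl⟩ := hM.q_surj x
    rw [← hM.q_equiv g R ⟨a, ha⟩, hM.lam_q _ a (hgal g R a ha), hM.lam_q _ a ha]
  -- surjectivity of `lam`
  have hlamsurj : Function.Surjective lam := by
    intro t
    obtain ⟨a, rfl⟩ := ZMod.intCast_surjective t
    obtain ⟨R, hR⟩ := hdiv (a • y)
    exact ⟨q R, hM.lam_q R a hR⟩
  -- exactness
  have hexact : ∀ x : E, lam x = 0 ↔ ∃ v : V, ι v = x := by
    intro x
    constructor
    · intro hx
      obtain ⟨R, ⟨a, ha⟩, rfl⟩ := hM.q_surj x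
      rw [hM.lam_q R a ha, ZMod.intCast_zmod_eq_zero_iff_dvd] at hx
      obtain ⟨a', rfl⟩ := hx
      set u : J := R - a' • y with hu
      have hnu : n • u = 0 := by
        rw [hu, smul_sub, ha, mul_smul, natCast_zsmul, sub_self]
      have hεu : ε u ∈ VV n ε := ⟨by rw [← map_nsmul, hnu, map_zero], hidem u hnu⟩
      obtain ⟨v, hv⟩ := (hM.j_range _).mp hεu
      refine ⟨v, ?_⟩
      have hRR : R ∈ RR n y := ⟨_, ha⟩
      have hεRR : ε u ∈ RR n y := hRRtor _ hεu.1
      have hK : R - ε u ∈ KK n ε y := ⟨a', u, hnu, by rw [hu]; abel⟩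
      have h0 : q (R - ε u) = 0 := (hM.q_zero _ (hRRsub _ hRR _ hεRR)).mpr hK
      have h1 := hM.q_add _ (hRRsub _ hRR _ hεRR) _ hεRR
      rw [sub_add_cancel, h0, zero_add] at h1
      rw [hM.ι_eq, hv, h1]
    · rintro ⟨v, rfl⟩
      rw [hM.ι_eq, hM.lam_q (j v) 0 (by rw [(hjV v).1, zero_smul])]
      simp
  -- injectivity of `ι`
  have hιinj : Function.Injective ι := by
    rw [injective_iff_map_eq_zero]
    intro v hv
    rw [hM.ι_eq, hM.q_zero _ (hjRR v)] at hv
    obtain ⟨c, u, hnu, hjv⟩ := hv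
    have hnε : n • (u - ε u) = 0 := by
      rw [smul_sub, ← map_nsmul, hnu, map_zero, sub_zero]
    have hc : c = 0 := by
      by_contra hc0
      apply hyT
      have h1 : n • (c • y) = 0 := by
        have h2 := (hjV v).1
        rw [hjv, smul_add, hnε, add_zero] at h2
        exact h2
      have h3 : ((n : ℤ) * c) • y = 0 := by
        rw [mul_smul, natCast_zsmul]; exact h1
      refine ⟨((n : ℤ) * c).natAbs, Int.natAbs_pos.mpr (mul_ne_zero (by exact_mod_cast hn0) hc0), ?_⟩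
      rcases Int.natAbs_eq ((n : ℤ) * c) with h4 | h4
      · rw [← natCast_zsmul, ← h4]; exact h3
      · have h5 : (((n : ℤ) * c).natAbs : ℤ) = -((n : ℤ) * c) := by omega
        rw [← natCast_zsmul, h5, neg_smul, h3, neg_zero]
    have hjv0 : j v = 0 := by
      have h1 := (hjV v).2
      rw [hjv, hc, zero_smul, zero_add] at h1 ⊢
      rw [← h1, map_sub, hidem u hnu, sub_self]
    exact hM.j_inj (by rw [hjv0, map_zero])
  -- finiteness
  have hfinV : Finite V := by
    haveI : Finite {x : J | n • x = 0} := hfin.to_subtype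
    refine Finite.of_injective (fun v => (⟨j v, (hjV v).1⟩ : {x : J | n • x = 0})) ?_
    intro v w hvw
    exact hM.j_inj (congrArg Subtype.val hvw)
  have hfinE : Finite E := by
    refine Finite.of_surjective
      (fun p : ZMod n × V => Function.surjInv hlamsurj p.1 + ι p.2) ?_
    intro x
    have h0 : lam (x - Function.surjInv hlamsurj (lam x)) = 0 := by
      rw [map_sub, Function.surjInv_eq hlamsurj, sub_self]
    obtain ⟨v, hv⟩ := (hexact _).mp h0
    exact ⟨(lam x, v), by simp only [hv]; abel⟩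
  exact ⟨hfinE, hιinj, hlamsurj, hexact, hιeq, hlaminv⟩

theorem modelExactStatement : ModelExactStatement := by
  intro r _ k N AN J _ _ ε e C hA y hy hyT E V _ _ _ _ q j ι lam hM
  have hr : r.Prime := Fact.out
  have : NeZero (r ^ k) := ⟨pow_ne_zero _ hr.ne_zero⟩
  exact modelExactStatement_aux (r ^ k) ε hA.div hA.fin hA.ε_idem y hy hyT E V q j ι lam hM

end Fermat.Agent.S15.HG

end
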