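/-
S15, block HG, part APP (helper273): formal properties of the pairing `e` of `AppHyp` on `J[n]`, and its
perfectness: every character of `J[n]` is `e · w` (resp. `e x ·`) for some `w` (resp. `x`) in `J[n]`.
Shared by the nodes A4 and A6.
-/
import Fermat.Agent.S15.HG.App.Defs
import Fermat.Agent.S15.HG.DualSES

set_option autoImplicit false

namespace Fermat.Agent.S15.HG

open Fermat.Agent.S19

variable {r k N : ℕ} {AN : ValuationSubring Qb} {J : Type} [AddCommGroup J]
  [DistribMulAction Gal J] {ε : J →+ J} {e : J → J → Qb} {C : ℕ}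

theorem perfect_e_zero_left (h : AppHyp r k N AN J ε e C) (w : J) (hw : r ^ k • w = 0) :
    e 0 w = 1 := by
  have h1 := h.e_add_left 0 0 w (smul_zero _) (smul_zero _) hw
  rw [add_zero] at h1
  exact (mul_eq_left₀ (h.e_ne_zero 0 w (smul_zero _) hw)).1 h1.symm

theorem perfect_e_zero_right (h : AppHyp r k N AN J ε e C) (x : J) (hx : r ^ k • x = 0) :
    e x 0 = 1 := by
  have h1 := h.e_add_right x 0 0 hx (smul_zero _) (smul_zero _)
  rw [add_zero] at h1
  exact (mul_eq_left₀ (h.e_ne_zero x 0 hx (smul_zero _))).1 h1.symm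

theorem perfect_e_neg_left (h : AppHyp r k N AN J ε e C) (x w : J) (hx : r ^ k • x = 0)
    (hw : r ^ k • w = 0) : e (-x) w = (e x w)⁻¹ := by
  have h1 := h.e_add_left x (-x) w hx (by rw [smul_neg, hx, neg_zero]) hw
  rw [add_neg_cancel, perfect_e_zero_left h w hw] at h1
  exact eq_inv_of_mul_eq_one_right h1.symm

theorem perfect_e_neg_right (h : AppHyp r k N AN J ε e C) (x w : J) (hx : r ^ k • x = 0)
    (hw : r ^ k • w = 0) : e x (-w) = (e x w)⁻¹ := by
  have h1 := h.e_add_right x w (-w) hx hw (by rw [smul_neg, hw, neg_zero])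
  rw [add_neg_cancel, perfect_e_zero_right h x hx] at h1
  exact eq_inv_of_mul_eq_one_right h1.symm

/-- an abstract form: an injective family of characters of a finite group, indexed by the group
itself, exhausts the characters. -/
theorem perfect_aux {T : Type} [AddCommGroup T] [Finite T] (Φ : T → CD T)
    (hΦ : Function.Injective Φ) : Function.Surjective Φ := by
  have := dualSESStatement_finite T
  exact (hΦ.bijective_of_nat_card_le (dualSESStatement_card T).le).2

/-- **Perfectness on the right**: every character of `J[n]` is `e · w`. -/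
theorem perfect_exists_right (h : AppHyp r k N AN J ε e C) (χ : J → Qb) (h0 : χ 0 = 1)
    (h1 : ∀ x x' : J, r ^ k • x = 0 → r ^ k • x' = 0 → χ (x + x') = χ x * χ x') :
    ∃ w : J, r ^ k • w = 0 ∧ ∀ x : J, r ^ k • x = 0 → χ x = e x w := by
  let T : AddSubgroup J := (nsmulAddMonoidHom (α := J) (r ^ k)).ker
  have hT : ∀ x : T, r ^ k • (x : J) = 0 := fun x => x.2
  have : Finite T := h.fin.to_subtype
  let Φ : T → CD T := fun w => CD.mk
    { toFun := fun x => e x w
      map_zero_eq_one' := perfect_e_zero_left h w (hT w)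
      map_add_eq_mul' := fun x x' => h.e_add_left x x' w (hT x) (hT x') (hT w) }
  have hΦ : Function.Injective Φ := by
    intro w w' hww
    have h2 : (w : J) + -(w' : J) = 0 := by
      refine h.e_nondeg_right _ (by rw [smul_add, smul_neg, hT w, hT w', neg_zero, add_zero])
        fun x hx => ?_
      have h3 : e x w = e x w' := congrArg (fun f : CD T => f.ev ⟨x, hx⟩) hww
      rw [h.e_add_right x w (-w') hx (hT w) (by rw [smul_neg, hT w', neg_zero]),
        perfect_e_neg_right h x w' hx (hT w'), h3,
        mul_inv_cancel₀ (h.e_ne_zero x w' hx (hT w'))]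
    exact Subtype.ext (add_neg_eq_zero.1 h2)
  obtain ⟨w, hw⟩ := perfect_aux Φ hΦ (CD.mk
    { toFun := fun x => χ x
      map_zero_eq_one' := h0
      map_add_eq_mul' := fun x x' => h1 x x' (hT x) (hT x') })
  exact ⟨w, hT w, fun x hx => (congrArg (fun f : CD T => f.ev ⟨x, hx⟩) hw).symm⟩

/-- **Perfectness on the left**: every character of `J[n]` is `e x ·`. -/
theorem perfect_exists_left (h : AppHyp r k N AN J ε e C) (χ : J → Qb) (h0 : χ 0 = 1)
    (h1 : ∀ w w' : J, r ^ k • w = 0 → r ^ k • w' = 0 → χ (w + w') = χ w * χ w') :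
    ∃ x : J, r ^ k • x = 0 ∧ ∀ w : J, r ^ k • w = 0 → χ w = e x w := by
  let T : AddSubgroup J := (nsmulAddMonoidHom (α := J) (r ^ k)).ker
  have hT : ∀ x : T, r ^ k • (x : J) = 0 := fun x => x.2
  have : Finite T := h.fin.to_subtype
  let Φ : T → CD T := fun x => CD.mk
    { toFun := fun w => e x w
      map_zero_eq_one' := perfect_e_zero_right h x (hT x)
      map_add_eq_mul' := fun w w' => h.e_add_right x w w' (hT x) (hT w) (hT w') }
  have hΦ : Function.Injective Φ := by
    intro x x' hxx
    have h2 : (x : J) + -(x' : J) = 0 := by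
      refine h.e_nondeg_left _ (by rw [smul_add, smul_neg, hT x, hT x', neg_zero, add_zero])
        fun w hw => ?_
      have h3 : e x w = e x' w := congrArg (fun f : CD T => f.ev ⟨w, hw⟩) hxx
      rw [h.e_add_left x (-x') w (hT x) (by rw [smul_neg, hT x', neg_zero]) hw,
        perfect_e_neg_left h x' w (hT x') hw, h3,
        mul_inv_cancel₀ (h.e_ne_zero x' w (hT x') hw)]
    exact Subtype.ext (add_neg_eq_zero.1 h2)
  obtain ⟨x, hx⟩ := perfect_aux Φ hΦ (CD.mk
    { toFun := fun w => χ w
      map_zero_eq_one' := h0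
      map_add_eq_mul' := fun w w' => h1 w w' (hT w) (hT w') })
  exact ⟨x, hT x, fun w hw => (congrArg (fun f : CD T => f.ev ⟨w, hw⟩) hx).symm⟩

end Fermat.Agent.S15.HG
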