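/-
S15, block HG, part APP, node A4 (task HG-A4, helper273): the model `E = RR / KK` has a Hopf order at `r`.

`S19.hasHopfOrder_of_pairing` is applied to the evaluation pairing `E × CD E → ℚ̄`; the integrality is
checked on inertia (`S19.inSpan_of_inertia_local`): for `v = q R` and `f₀ : CD E`
  `(s • f₀)(v) = s (f₀ v) * (e (s R - R) (s w))⁻¹`
where `w ∈ J[n]` represents the character `x ↦ f₀ (q x)` of `J[n]` (perfectness of `e`), and the Kummer
cocycle `s ↦ e (s R - R) (s w)` is flat by `AppHyp.fl`.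
-/
import Fermat.Agent.S15.HG.App.Statements
import Fermat.Agent.S15.HG.App.Perfect
import Fermat.Agent.S15.HG.HypDual
import Fermat.Agent.S19.TheoremA
import Fermat.Agent.S19.Loc.Main

set_option autoImplicit false

namespace Fermat.Agent.S15.HG

open Fermat.Agent.S19

/-- roots of unity lie in every valuation subring -/
private theorem modelHopfStatement_mem_of_pow (A : ValuationSubring Qb) {c : Qb} {m : ℕ}
    (hm : 0 < m) (hc : c ^ m = 1) : c ∈ A := by
  rcases A.mem_or_inv_mem c with h | h
  · exact h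
  · obtain ⟨m, rfl⟩ : ∃ m', m = m' + 1 := ⟨m - 1, by omega⟩
    have h1 : c = c⁻¹ ^ m := by
      rw [pow_succ] at hc
      rw [inv_pow]
      exact eq_inv_of_mul_eq_one_right hc
    rw [h1]
    exact pow_mem h m

/-- characters of a finite abelian group separate points -/
private theorem modelHopfStatement_sep {U : Type} [AddCommGroup U] [Finite U] {x : U}
    (hx : ∀ f : CD U, f.ev x = 1) : x = 0 := by
  by_contra hne
  have := dualSESStatement_enough U
  obtain ⟨φ, hφ⟩ := CommGroup.exists_apply_ne_one_of_hasEnoughRootsOfUnity (Multiplicative U) Qb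
    (a := Multiplicative.ofAdd x) (fun h => hne h)
  apply hφ
  have h1 := hx ((dualSESStatement_equiv U).symm φ)
  rw [← dualSESStatement_equiv_apply, Equiv.apply_symm_apply] at h1
  exact Units.ext h1

/-- the Cartier dual of a finite smooth module is acted on through a finite quotient -/
private theorem modelHopfStatement_smooth {U : Type} [AddCommGroup U] [Finite U]
    [DistribMulAction Gal U] (hU : Smooth U) : IsSmoothAct (CD U) := by
  have hfin : Finite (CD U) := dualSESStatement_finite U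
  choose F hF hx using hU
  have hFd : ∀ x, FiniteDimensional ℚ (F x) := hF
  have hAd : ∀ p : U × CD U, FiniteDimensional ℚ (IntermediateField.adjoin ℚ {p.2.ev p.1}) :=
    fun p => IntermediateField.adjoin.finiteDimensional (hypDualStatement_isIntegral (p.2.ev p.1))
  have hsup : ∀ p : U × CD U, FiniteDimensional ℚ
      (F p.1 ⊔ IntermediateField.adjoin ℚ {p.2.ev p.1} : IntermediateField ℚ Qb) := fun p =>
    IntermediateField.finiteDimensional_sup _ _
  refine ⟨⨆ p : U × CD U, (F p.1 ⊔ IntermediateField.adjoin ℚ {p.2.ev p.1}),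
    IntermediateField.finiteDimensional_iSup_of_finite, fun σ hσ f => CD.ext fun x => ?_⟩
  have hle : (F x ⊔ IntermediateField.adjoin ℚ {f.ev x} : IntermediateField ℚ Qb) ≤
      ⨆ p : U × CD U, (F p.1 ⊔ IntermediateField.adjoin ℚ {p.2.ev p.1}) :=
    le_iSup (fun p : U × CD U =>
      (F p.1 ⊔ IntermediateField.adjoin ℚ {p.2.ev p.1} : IntermediateField ℚ Qb)) (x, f)
  have hσ' := (IntermediateField.mem_fixingSubgroup_iff _ σ).1 hσ
  have hσx : σ • x = x := hx x σ ((IntermediateField.mem_fixingSubgroup_iff _ σ).2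
    fun y hy => hσ' y (hle (le_sup_left (a := F x) hy)))
  have hσx' : σ⁻¹ • x = x := by
    conv_lhs => rw [← hσx]
    rw [inv_smul_smul]
  rw [CD.ev_smul, hσx']
  exact hσ' _ (hle (le_sup_right (a := F x)
    (IntermediateField.mem_adjoin_simple_self ℚ (f.ev x))))

/-- A4 -/
theorem modelHopfStatement (hEx : ModelExactStatement) (_hSES : DualSESStatement) :
    ModelHopfStatement := by
  intro r _ k N AN J _ _ ε e C h y hy hyt E V _ _ _ _ q j ι lam hM
  obtain ⟨hfin, -⟩ := hEx r k N AN J ε e C h y hy hyt E V q j ι lam hM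
  have hfinCD : Finite (CD E) := dualSESStatement_finite E
  have hsm : Smooth E := by
    intro x
    obtain ⟨R, hR, rfl⟩ := hM.q_surj x
    obtain ⟨F, hF, hFR⟩ := h.smooth R
    exact ⟨F, hF, fun σ hσ => by rw [← hM.q_equiv σ R hR, hFR σ hσ]⟩
  refine hasHopfOrder_of_pairing r (V := E) (W := CD E) (fun v f => f.ev v)
    (fun v v' f => CD.ev_map_add f v v') ?_ ?_ ?_
  · intro σ v f
    show (σ • f).ev (σ • v) = σ (f.ev v)
    rw [CD.ev_smul, inv_smul_smul]
  · intro v v' hvv
    have h1 : v - v' = 0 := modelHopfStatement_sep fun f => by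
      have h2 : f.ev v = f.ev v' := congrFun hvv f
      rw [hypDualStatement_ev_map_sub, h2, div_self (hypDualStatement_ev_ne_zero f v')]
    exact sub_eq_zero.1 h1
  · intro A hA v
    refine inSpan_of_inertia_local hA (modelHopfStatement_smooth hsm) _ fun f0 => ?_
    show IsSI A (fun σ => (σ • f0).ev v)
    obtain ⟨R, hR, rfl⟩ := hM.q_surj v
    obtain ⟨a, ha⟩ := hR
    have hR : R ∈ RR (r ^ k) y := ⟨a, ha⟩
    have hRat : Rat (r ^ k • R) := by
      intro g
      rw [ha, smul_comm g a y, hy g]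
    have hJn : ∀ x : J, r ^ k • x = 0 → x ∈ RR (r ^ k) y := fun x hx =>
      ⟨0, by rw [hx, zero_smul]⟩
    have hd : ∀ σ : Gal, r ^ k • (σ • R - R) = 0 := fun σ => by
      rw [smul_sub, smul_comm (r ^ k) σ R, hRat σ, sub_self]
    have hq0 : q 0 = 0 := by
      have h1 := hM.q_add 0 (hJn 0 (smul_zero _)) 0 (hJn 0 (smul_zero _))
      rw [add_zero] at h1
      exact left_eq_add.1 h1
    obtain ⟨w, hw, hχ⟩ := perfect_exists_right h (fun x => f0.ev (q x))
      (by show f0.ev (q 0) = 1; rw [hq0, CD.ev_map_zero])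
      (fun x x' hx hx' => by
        show f0.ev (q (x + x')) = f0.ev (q x) * f0.ev (q x')
        rw [hM.q_add x (hJn x hx) x' (hJn x' hx'), CD.ev_map_add])
    have hσw : ∀ σ : Gal, r ^ k • (σ • w) = 0 := fun σ => by
      rw [smul_comm (r ^ k) σ w, hw, smul_zero]
    have key : ∀ σ : Gal, (σ • f0).ev (q R) =
        σ (f0.ev (q R)) * (e (σ • R - R) (σ • w))⁻¹ := by
      intro σ
      have h1 : σ⁻¹ • q R = q R + q (σ⁻¹ • R - R) := by
        rw [← hM.q_equiv σ⁻¹ R hR, ← hM.q_add R hR _ (hJn _ (hd σ⁻¹)), add_sub_cancel]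
      have h2 : f0.ev (q (σ⁻¹ • R - R)) = e (σ⁻¹ • R - R) w := hχ _ (hd σ⁻¹)
      have h3 : σ • (σ⁻¹ • R - R) = -(σ • R - R) := by
        rw [smul_sub, smul_inv_smul, neg_sub]
      rw [CD.ev_smul, h1, CD.ev_map_add, h2, map_mul, ← h.e_equiv σ _ w (hd σ⁻¹) hw, h3,
        perfect_e_neg_left h _ _ (hd σ) (hσw σ)]
    have hc : f0.ev (q R) ∈ A := by
      refine modelHopfStatement_mem_of_pow A (m := Nat.card E) Nat.card_pos ?_
      rw [← hypDualStatement_ev_map_nsmul, card_nsmul_eq_zero', CD.ev_map_zero]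
    have hfl := h.fl A hA R w hRat hw
    have h1 : e ((1 : Gal) • R - R) ((1 : Gal) • w) = 1 := by
      rw [one_smul, sub_self, one_smul, perfect_e_zero_left h w hw]
    have hinv : IsSI A (fun s => (e (s • R - R) (s • w))⁻¹) :=
      hfl.inv (by show (e ((1 : Gal) • R - R) ((1 : Gal) • w))⁻¹ ∈ A
                  rw [h1, inv_one]; exact A.one_mem)
        (by show e ((1 : Gal) • R - R) ((1 : Gal) • w) ≠ 0
            rw [h1]; exact one_ne_zero)
    exact ((IsSI.apply hc).mul hinv).congr fun σ _ => key σ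

end Fermat.Agent.S15.HG
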