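/-
S15, block HG, part APP, node A3 (architect helper64, proof helper70): the model `E = RR / KK`
satisfies the standing hypotheses `Hyp` of Theorem G.
-/
import Fermat.Agent.S15.HG.App.Statements

set_option autoImplicit false
set_option linter.unusedSectionVars false

namespace Fermat.Agent.S15.HG

open Fermat.Agent.S19

section Aux

theorem modelHypStatement_eisOp_map {U U' : Type} [AddCommGroup U] [AddCommGroup U']
    [DistribMulAction Gal U] [DistribMulAction Gal U'] (f : U →+ U')
    (hf : ∀ (g : Gal) (x : U), f (g • x) = g • f x) (g : Gal) (a : ℕ) (x : U) :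
    f (eisOp g a x) = eisOp g a (f x) := by
  unfold eisOp
  rw [map_add, map_sub, map_nsmul, map_nsmul, hf, hf]

theorem modelHypStatement_eisOp_iterate {U U' : Type} [AddCommGroup U] [AddCommGroup U']
    [DistribMulAction Gal U] [DistribMulAction Gal U'] (f : U →+ U')
    (hf : ∀ (g : Gal) (x : U), f (g • x) = g • f x) (g : Gal) (a : ℕ) (m : ℕ) (x : U) :
    f ((eisOp g a)^[m] x) = (eisOp g a)^[m] (f x) := by
  induction m generalizing x with
  | zero => rfl
  | succ m ih =>
    rw [Function.iterate_succ_apply, Function.iterate_succ_apply, ih,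
      modelHypStatement_eisOp_map f hf]

variable {J : Type} [AddCommGroup J] [DistribMulAction Gal J]

theorem modelHypStatement_rat_zsmul {y : J} (hy : Rat y) (a : ℤ) : Rat (a • y) := by
  intro g
  have h := map_zsmul (DistribSMul.toAddMonoidHom J g) a y
  rw [DistribSMul.toAddMonoidHom_apply, DistribSMul.toAddMonoidHom_apply, hy g] at h
  exact h

theorem modelHypStatement_zero_mem (n : ℕ) (y : J) : (0 : J) ∈ RR n y :=
  ⟨0, by rw [smul_zero, zero_smul]⟩

theorem modelHypStatement_add_mem {n : ℕ} {y R R' : J} (h : R ∈ RR n y) (h' : R' ∈ RR n y) :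
    R + R' ∈ RR n y := by
  obtain ⟨a, ha⟩ := h
  obtain ⟨b, hb⟩ := h'
  exact ⟨a + b, by rw [smul_add, ha, hb, add_smul]⟩

theorem modelHypStatement_nsmul_mem {n : ℕ} {y R : J} (h : R ∈ RR n y) (m : ℕ) :
    m • R ∈ RR n y := by
  induction m with
  | zero => rw [zero_smul]; exact modelHypStatement_zero_mem n y
  | succ m ih => rw [succ_nsmul]; exact modelHypStatement_add_mem ih h

theorem modelHypStatement_q_nsmul {n : ℕ} {ε : J →+ J} {y : J} {E V : Type} [AddCommGroup E]
    [AddCommGroup V] [DistribMulAction Gal E] [DistribMulAction Gal V] {q : J → E} {j : V →+ J}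
    {ι : V →+ E} {lam : E →+ ZMod n} (Md : IsModel n ε y E V q j ι lam) {R : J}
    (hR : R ∈ RR n y) (m : ℕ) : q (m • R) = m • q R := by
  induction m with
  | zero =>
    rw [zero_smul, zero_smul]
    exact (Md.q_zero 0 (modelHypStatement_zero_mem n y)).2
      ⟨0, 0, smul_zero n, by rw [zero_smul, map_zero, sub_zero, add_zero]⟩
  | succ m ih =>
    rw [succ_nsmul, succ_nsmul, Md.q_add _ (modelHypStatement_nsmul_mem hR m) _ hR, ih]

end Aux

theorem modelHypStatement (hEx : ModelExactStatement) : ModelHypStatement := by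
  intro r _ k N AN J _ _ ε e C H y hy hyT E V _ _ _ _ q j ι lam Md
  obtain ⟨-, -, -, hex, hι, hlam⟩ := hEx r k N AN J ε e C H y hy hyT E V q j ι lam Md
  refine ⟨?_, ?_, ?_, ?_⟩
  · -- torsion
    intro x
    obtain ⟨R, hR, rfl⟩ := Md.q_surj x
    rw [← modelHypStatement_q_nsmul Md hR]
    obtain ⟨a, ha⟩ := hR
    exact (Md.q_zero _ (modelHypStatement_nsmul_mem ⟨a, ha⟩ _)).2
      ⟨a, 0, smul_zero _, by rw [ha, map_zero, sub_zero, add_zero]⟩
  · -- smoothness
    intro x
    obtain ⟨R, hR, rfl⟩ := Md.q_surj x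
    obtain ⟨F, hF, hfix⟩ := H.smooth R
    exact ⟨F, hF, fun σ hσ => by rw [← Md.q_equiv σ R hR, hfix σ hσ]⟩
  · -- unramified outside `r N`
    intro ℓ hℓ hℓr hℓN
    obtain ⟨A, hA, hin⟩ := H.unram ℓ hℓ hℓr hℓN
    refine ⟨A, hA, fun σ hσ x => ?_⟩
    obtain ⟨R, hR, rfl⟩ := Md.q_surj x
    have hrat : Rat (r ^ k • R) := by
      obtain ⟨a, ha⟩ := hR
      rw [ha]
      exact modelHypStatement_rat_zsmul hy a
    rw [← Md.q_equiv σ R hR, hin σ hσ R hrat]
  · -- Eisenstein
    intro g a hζ
    obtain ⟨m, hm⟩ := H.eis g a hζ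
    refine ⟨m + 1, fun x => ?_⟩
    rw [Function.iterate_succ_apply]
    have h0 : lam (eisOp g a x) = 0 := by
      unfold eisOp
      rw [map_add, map_sub, map_nsmul, map_nsmul, hlam, hlam, add_smul, one_smul]
      abel
    obtain ⟨v, hv⟩ := (hex _).1 h0
    rw [← hv, ← modelHypStatement_eisOp_iterate ι hι]
    have h1 : (eisOp g a)^[m] v = 0 := by
      apply Md.j_inj
      rw [modelHypStatement_eisOp_iterate j Md.j_equiv, map_zero]
      exact hm _ ((Md.j_range _).2 ⟨v, rfl⟩)
    rw [h1, map_zero]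

end Fermat.Agent.S15.HG
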