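/-
S15, block HG, part APP, node A5 (task HG-A5, helper233): inertia at `N` acts unipotently of level 2
on the model `E = RR / KK`.
-/
import Fermat.Agent.S15.HG.App.Statements
import Fermat.Agent.Lib.InertiaField.Hensel

set_option autoImplicit false

namespace Fermat.Agent.S15.HG

open Fermat.Agent.S19

private theorem modelUniStatement_e_zero {r k N : ℕ} {AN : ValuationSubring Qb} {J : Type}
    [AddCommGroup J] [DistribMulAction Gal J] {ε : J →+ J} {e : J → J → Qb} {C : ℕ}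
    (H : AppHyp r k N AN J ε e C) (w : J) (hw : r ^ k • w = 0) : e 0 w = 1 := by
  have h0 : r ^ k • (0 : J) = 0 := smul_zero _
  have h1 := H.e_add_left 0 0 w h0 h0 hw
  rw [add_zero] at h1
  have h2 := H.e_ne_zero 0 w h0 hw
  exact (mul_left_cancel₀ h2 (by rw [← h1, mul_one])).symm

private theorem modelUniStatement_e_nsmul {r k N : ℕ} {AN : ValuationSubring Qb} {J : Type}
    [AddCommGroup J] [DistribMulAction Gal J] {ε : J →+ J} {e : J → J → Qb} {C : ℕ}
    (H : AppHyp r k N AN J ε e C) (x w : J) (hx : r ^ k • x = 0) (hw : r ^ k • w = 0) (m : ℕ) :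
    e (m • x) w = e x w ^ m := by
  induction m with
  | zero => rw [zero_smul, pow_zero, modelUniStatement_e_zero H w hw]
  | succ m ih =>
    have h1 : r ^ k • (m • x) = 0 := by rw [smul_comm, hx, smul_zero]
    rw [succ_nsmul, H.e_add_left _ _ _ h1 hx hw, ih, pow_succ]

private theorem modelUniStatement_e_pow {r k N : ℕ} {AN : ValuationSubring Qb} {J : Type}
    [AddCommGroup J] [DistribMulAction Gal J] {ε : J →+ J} {e : J → J → Qb} {C : ℕ}
    (H : AppHyp r k N AN J ε e C) (x w : J) (hx : r ^ k • x = 0) (hw : r ^ k • w = 0) :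
    e x w ^ r ^ k = 1 := by
  rw [← modelUniStatement_e_nsmul H x w hx hw, hx, modelUniStatement_e_zero H w hw]

theorem modelUniStatement : ModelUniStatement := by
  intro r _ k N hN hNr AN hAN J _ _ ε e C H y hy _ E V _ _ _ _ q j ι lam M τ hτ x
  obtain ⟨R, hR, rfl⟩ := M.q_surj x
  obtain ⟨a, ha⟩ := hR
  have hr : r.Prime := Fact.out
  have hNrk : ¬ N ∣ r ^ k := fun h =>
    hNr ((Nat.prime_dvd_prime_iff_eq hN hr).mp (hN.dvd_of_dvd_pow h))
  -- `n R` is rational
  have hRat : Rat (r ^ k • R) := by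
    intro g
    rw [ha, smul_comm g a y, hy g]
  have hmemRR : ∀ g : Gal, ∀ S ∈ RR (r ^ k) y, g • S ∈ RR (r ^ k) y := by
    rintro g S ⟨b, hb⟩
    exact ⟨b, by rw [smul_comm (r ^ k) g S, hb, smul_comm g b y, hy g]⟩
  have hR0 : R ∈ RR (r ^ k) y := ⟨a, ha⟩
  have hR1 : τ • R ∈ RR (r ^ k) y := hmemRR τ R hR0
  have hR2 : τ • τ • R ∈ RR (r ^ k) y := hmemRR τ _ hR1
  -- `x₁ = τ R - R`
  have hx1 : r ^ k • (τ • R - R) = 0 := by
    rw [smul_sub, smul_comm (r ^ k) τ R, hRat τ, sub_self]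
  have hτx1 : r ^ k • (τ • (τ • R - R)) = 0 := by
    rw [smul_comm (r ^ k) τ, hx1, smul_zero]
  have hd : r ^ k • (τ • (τ • R - R) - (τ • R - R)) = 0 := by
    rw [smul_sub, hτx1, hx1, sub_self]
  have hclaim : τ • (τ • R - R) - (τ • R - R) = 0 := by
    refine H.e_nondeg_left _ hd fun w hw => ?_
    have hw' : r ^ k • (τ⁻¹ • w) = 0 := by rw [smul_comm (r ^ k) τ⁻¹, hw, smul_zero]
    have hw'' : r ^ k • (τ⁻¹ • w - w) = 0 := by rw [smul_sub, hw', hw, sub_self]
    have h1 : e (τ • (τ • R - R)) w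
        = e (τ • (τ • R - R) - (τ • R - R)) w * e (τ • R - R) w := by
      rw [← H.e_add_left _ _ _ hd hx1 hw, sub_add_cancel]
    have h2 : e (τ • (τ • R - R)) w = τ (e (τ • R - R) (τ⁻¹ • w)) := by
      rw [← H.e_equiv τ _ _ hx1 hw', smul_inv_smul]
    have h3 : τ (e (τ • R - R) (τ⁻¹ • w)) = e (τ • R - R) (τ⁻¹ • w) :=
      (Lib.InertiaField.mem_K0_iff AN _).1
        (Lib.InertiaField.rootOfUnity_mem_K0 AN N hN hAN hNrk
          (modelUniStatement_e_pow H _ _ hx1 hw')) τ hτ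
    have h4 : e (τ • R - R) (τ⁻¹ • w) = e (τ • R - R) w * e (τ • R - R) (τ⁻¹ • w - w) := by
      rw [← H.e_add_right _ _ _ hx1 hw hw'', add_sub_cancel]
    have h5 : e (τ • R - R) (τ⁻¹ • w - w) = 1 :=
      H.locN τ hτ τ⁻¹ (inv_mem hτ) R w hRat (by rw [hw]; intro g; exact smul_zero g)
    have h6 := H.e_ne_zero _ _ hx1 hw
    rw [h2, h3, h4, h5, mul_one] at h1
    exact (mul_right_cancel₀ h6 (by rw [← h1, one_mul])).symm
  have hJ : τ • τ • R + R = τ • R + τ • R := by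
    rw [smul_sub] at hclaim
    have : τ • τ • R + R - (τ • R + τ • R) = τ • τ • R - τ • R - (τ • R - R) := by abel
    exact sub_eq_zero.mp (this.trans hclaim)
  have hq := congrArg q hJ
  rw [M.q_add _ hR2 _ hR0, M.q_add _ hR1 _ hR1, M.q_equiv τ _ hR1, M.q_equiv τ _ hR0] at hq
  rw [two_smul, sub_add_eq_add_sub, hq, sub_self]

end Fermat.Agent.S15.HG
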