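/-
S15, block HG, part APP: final assembly.  Owner: helper64.  Blueprint: report #1380 (APPLICATION).

* `app_final : AppStatement`: for every `AppHyp r k N AN J ε e C` (an abstract "Jacobian with Eisenstein projector at level
  `r ^ k`", `C * C < r ^ k`) and every rational `y : J` there are rational `m' t : J`, `t` torsion, with
  `ε y = r • m' + t`.
-/
import Fermat.Agent.S15.HG.Final
import Fermat.Agent.S15.HG.App.Model
import Fermat.Agent.S15.HG.App.ModelExact
import Fermat.Agent.S15.HG.App.ModelHyp
import Fermat.Agent.S15.HG.App.ModelHopf
import Fermat.Agent.S15.HG.App.ModelUni
import Fermat.Agent.S15.HG.App.ModelBound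
import Fermat.Agent.S15.HG.App.Extract
import Fermat.Agent.S15.HG.App.Main

set_option autoImplicit false

namespace Fermat.Agent.S15.HG

theorem app_final : AppStatement :=
  appStatement chain_final modelStatement modelExactStatement
    (modelHypStatement modelExactStatement)
    (modelHopfStatement modelExactStatement dualSESStatement)
    modelUniStatement
    (extractStatement modelExactStatement modelBoundStatement)

end Fermat.Agent.S15.HG
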