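/-
S15, block HG, part APP, node A6 (task HG-A6): at most `C` rational points in `V = ε J[n]` and at most
`C` rational characters of `V`.
-/
import Fermat.Agent.S15.HG.App.Statements

set_option autoImplicit false

namespace Fermat.Agent.S15.HG

open Fermat.Agent.S19

/-- Dedekind's independence of characters: a finite abelian group `T` has at most `|T|`
characters. -/
private theorem modelBound_card_hom_le (T : Type) [AddCommGroup T] [Finite T] :
    Finite (Multiplicative T →* Qb) ∧ Nat.card (Multiplicative T →* Qb) ≤ Nat.card T := by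
  classical
  have hli := linearIndependent_monoidHom (Multiplicative T) Qb
  have : Fintype (Multiplicative T) := Fintype.ofFinite _
  have hfin : Finite (Multiplicative T →* Qb) := hli.finite
  have : Fintype (Multiplicative T →* Qb) := Fintype.ofFinite _
  refine ⟨hfin, ?_⟩
  have hle := hli.fintype_card_le_finrank
  rw [Module.finrank_fintype_fun_eq_card] at hle
  rw [Nat.card_eq_fintype_card]
  refine hle.trans (le_of_eq ?_)
  rw [← Nat.card_eq_fintype_card]
  exact Nat.card_congr Multiplicative.toAdd

theorem modelBoundStatement : ModelBoundStatement := by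
  intro r _ k N AN J _ _ ε e C h V _ _ j hj hrange hequiv
  classical
  have hfinR : {x : J | r ^ k • x = 0 ∧ Rat x}.Finite := h.fin.subset (fun x hx => hx.1)
  have : Finite {x : J | r ^ k • x = 0 ∧ Rat x} := hfinR.to_subtype
  have hcard : Nat.card {x : J | r ^ k • x = 0 ∧ Rat x} ≤ C := by
    rw [Nat.card_coe_set_eq]
    exact h.card_le
  constructor
  · let Θ : {v : V // ∀ g : Gal, g • v = v} → {x : J | r ^ k • x = 0 ∧ Rat x} := fun v =>
      ⟨j v.1, ((hrange (j v.1)).2 ⟨v.1, rfl⟩).1, fun g => by rw [← hequiv, v.2 g]⟩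
    have hΘ : Function.Injective Θ := fun v v' hvv =>
      Subtype.ext (hj (congrArg Subtype.val hvv))
    exact (Nat.card_le_card_of_injective Θ hΘ).trans hcard
  · -- the group `T = J[n]`
    let T : AddSubgroup J :=
      { carrier := {x | r ^ k • x = 0}
        zero_mem' := smul_zero _
        add_mem' := fun {a b} ha hb => by
          show r ^ k • (a + b) = 0
          rw [smul_add, show r ^ k • a = 0 from ha, show r ^ k • b = 0 from hb, add_zero]
        neg_mem' := fun {a} ha => by
          show r ^ k • (-a) = 0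
          rw [smul_neg, show r ^ k • a = 0 from ha, neg_zero] }
    have hT : ∀ x : T, r ^ k • (x : J) = 0 := fun x => x.2
    have hfinT : Finite T := h.fin.to_subtype
    have hgT : ∀ (g : Gal) (x : J), r ^ k • x = 0 → r ^ k • (g • x) = 0 := fun g x hx => by
      rw [smul_comm, hx, smul_zero]
    -- formal properties of the pairing
    have e0 : ∀ w : T, e 0 w = 1 := by
      intro w
      have h1 := h.e_add_left 0 0 w (smul_zero _) (smul_zero _) (hT w)
      rw [add_zero] at h1
      have h2 := h.e_ne_zero 0 w (smul_zero _) (hT w)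
      exact (mul_eq_left₀ h2).mp h1.symm
    have esub : ∀ x w w' : J, r ^ k • x = 0 → r ^ k • w = 0 → r ^ k • w' = 0 → e x w = e x w' →
        e x (w - w') = 1 := by
      intro x w w' hx hw hw' hxw
      have hww : r ^ k • (w - w') = 0 := by rw [smul_sub, hw, hw', sub_zero]
      have h1 := h.e_add_right x w' (w - w') hx hw' hww
      rw [add_sub_cancel, hxw] at h1
      exact (mul_eq_left₀ (h.e_ne_zero x w' hx hw')).mp h1.symm
    -- `w ↦ e (·, w)`
    let Ψ : T → (Multiplicative T →* Qb) := fun w =>
      { toFun := fun x => e ((Multiplicative.toAdd x : T) : J) w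
        map_one' := e0 w
        map_mul' := fun x y => h.e_add_left _ _ _ (hT _) (hT _) (hT w) }
    have hΨ : Function.Injective Ψ := by
      intro w w' hww
      have h1 : ∀ x : J, r ^ k • x = 0 → e x ((w : J) - w') = 1 := fun x hx =>
        esub x w w' hx (hT w) (hT w')
          (DFunLike.congr_fun hww (Multiplicative.ofAdd (⟨x, hx⟩ : T)))
      have h2 := h.e_nondeg_right ((w : J) - w') (by rw [smul_sub, hT w, hT w', sub_zero]) h1
      exact Subtype.ext (sub_eq_zero.mp h2)
    obtain ⟨hfinH, hleH⟩ := modelBound_card_hom_le T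
    have hbij : Function.Bijective Ψ := hΨ.bijective_of_nat_card_le hleH
    -- the projection `J[n] → V`
    have hπex : ∀ x : T, ∃ v : V, j v = ε x := fun x =>
      (hrange (ε x)).1 ⟨by rw [← map_nsmul, hT x, map_zero], h.ε_idem x (hT x)⟩
    choose π hπ using hπex
    have π0 : π 0 = 0 := hj (by rw [hπ, map_zero]; exact map_zero ε)
    have πadd : ∀ x y : T, π (x + y) = π x + π y := fun x y => hj (by
      rw [hπ, map_add, hπ, hπ]
      exact map_add ε (x : J) (y : J))
    let χ : CD V → (Multiplicative T →* Qb) := fun f =>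
      { toFun := fun x => f.ev (π (Multiplicative.toAdd x))
        map_one' := by
          show f.ev (π 0) = 1
          rw [π0, CD.ev_map_zero]
        map_mul' := fun x y => by
          show f.ev (π (Multiplicative.toAdd x + Multiplicative.toAdd y)) = _
          rw [πadd, CD.ev_map_add] }
    choose W hW using fun f : CD V => hbij.2 (χ f)
    have hWe : ∀ (f : CD V) (x : T), e x (W f) = f.ev (π x) := fun f x =>
      DFunLike.congr_fun (hW f) (Multiplicative.ofAdd x)
    -- rationality
    have hrat : ∀ f : CD V, (∀ g : Gal, g • f = f) → Rat ((W f : T) : J) := by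
      intro f hf g
      have hw := hT (W f)
      have h1 : ∀ x : J, r ^ k • x = 0 → e x (g • ((W f : T) : J) - W f) = 1 := by
        intro x hx
        refine esub x _ _ hx (hgT g _ hw) hw ?_
        have hx' : r ^ k • (g⁻¹ • x) = 0 := hgT g⁻¹ x hx
        have h2 := h.e_equiv g (g⁻¹ • x) (W f) hx' hw
        rw [smul_inv_smul] at h2
        have h3 : π ⟨g⁻¹ • x, hx'⟩ = g⁻¹ • π ⟨x, hx⟩ := hj (by
          rw [hπ, hequiv, hπ]
          exact h.ε_equiv g⁻¹ x)
        have h4 := hWe f ⟨g⁻¹ • x, hx'⟩
        have h5 := hWe f ⟨x, hx⟩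
        simp only at h4 h5
        rw [h2, h4, h3, ← CD.ev_smul, hf g, h5]
      have h2 := h.e_nondeg_right _ (by rw [smul_sub, hgT g _ hw, hw, sub_zero]) h1
      exact sub_eq_zero.mp h2
    have hWinj : Function.Injective W := by
      intro f f' hff
      refine CD.ext fun v => ?_
      have hv := (hrange (j v)).2 ⟨v, rfl⟩
      have h1 : π ⟨j v, hv.1⟩ = v := hj (by rw [hπ]; exact hv.2)
      have h2 := hWe f ⟨j v, hv.1⟩
      have h3 := hWe f' ⟨j v, hv.1⟩
      rw [h1] at h2 h3
      rw [← h2, ← h3, hff]
    let Θ : {f : CD V // ∀ g : Gal, g • f = f} → {x : J | r ^ k • x = 0 ∧ Rat x} := fun f =>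
      ⟨W f.1, hT (W f.1), hrat f.1 f.2⟩
    have hΘ : Function.Injective Θ := fun f f' hff =>
      Subtype.ext (hWinj (Subtype.ext
        (congrArg (fun z : {x : J | r ^ k • x = 0 ∧ Rat x} => (z : J)) hff)))
    exact (Nat.card_le_card_of_injective Θ hΘ).trans hcard

end Fermat.Agent.S15.HG
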